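import Fermat.Agent.CasselsHurwitz.LargePrime
import Fermat.Agent.Thue.Equation
import Mathlib.Analysis.SpecificLimits.Basic

/-!
# The small primes of the values of a binary form

A prime power dividing `F (x, y)`, `gcd (x, y) = gcd (y, a₀) = 1`, puts `x / y` among boundedly
many residues, so the primes up to `z` carry `O (n² log z) + o (n²)` of `∑ log |F (x, y)|`.
-/

set_option autoImplicit false

noncomputable section

open Polynomial Finset

namespace FA.ErdosMahler

open FA.RichertValues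

variable {f : ℤ[X]}

/-- The residue of `x / y`. -/
def ratioMod (d x y : ℕ) : ℕ :=
  ((x : ZMod d) * (y : ZMod d)⁻¹).val

theorem ratioMod_mul {d x y : ℕ} (hd : 0 < d) (hy : y.Coprime d) :
    (ratioMod d x y : ZMod d) * y = x := by
  have : NeZero d := ⟨hd.ne'⟩
  rw [ratioMod, ZMod.natCast_zmod_val, mul_assoc, mul_comm (y : ZMod d)⁻¹,
    ZMod.coe_mul_inv_eq_one y hy, mul_one]

theorem ratioMod_root {d x y : ℕ} (hd : 0 < d) (hy : y.Coprime d)
    (h : (d : ℤ) ∣ Thue.form f x y) : (d : ℤ) ∣ f.eval (ratioMod d x y : ℤ) := by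
  rw [← ZMod.intCast_zmod_eq_zero_iff_dvd] at h ⊢
  set r : ZMod d := (ratioMod d x y : ZMod d) with hr
  have hx : (x : ZMod d) = r * y := (ratioMod_mul hd hy).symm
  have key : (Thue.form f x y : ZMod d) =
      (y : ZMod d) ^ f.natDegree * ((f.eval (ratioMod d x y : ℤ) : ℤ) : ZMod d) := by
    rw [eval_eq_sum_range, Thue.form]
    push_cast
    rw [mul_sum, ← hr]
    refine sum_congr rfl fun i hi => ?_
    rw [hx, mul_pow, show (y : ZMod d) ^ f.natDegree =
      (y : ZMod d) ^ i * (y : ZMod d) ^ (f.natDegree - i) by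
        rw [← pow_add, Nat.add_sub_cancel' (Nat.lt_succ_iff.1 (mem_range.1 hi))]]
    ring
  rw [key] at h
  exact ((ZMod.isUnit_iff_coprime y d).2 hy |>.pow _).mul_right_eq_zero.1 h

/-- At a prime of a value of a coprime pair the ordinate is a unit. -/
theorem coprime_snd {p x y : ℕ} (hp : p.Prime) (hxy : x.Coprime y)
    (hlc : y.Coprime f.leadingCoeff.natAbs) (h : (p : ℤ) ∣ Thue.form f x y) : y.Coprime p := by
  refine (hp.coprime_iff_not_dvd.2 fun hpy => ?_).symm
  have := Fact.mk hp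
  rw [← ZMod.intCast_zmod_eq_zero_iff_dvd] at h
  have hy0 : (y : ZMod p) = 0 := (ZMod.natCast_eq_zero_iff y p).2 hpy
  rw [Thue.form, sum_range_succ, Nat.sub_self, pow_zero, mul_one] at h
  push_cast at h
  rw [sum_eq_zero (fun i hi => by
    rw [hy0, zero_pow (Nat.sub_ne_zero_of_lt (mem_range.1 hi)), mul_zero]), zero_add,
    mul_eq_zero] at h
  rcases h with h | h
  · rw [ZMod.intCast_zmod_eq_zero_iff_dvd, Int.natCast_dvd] at h
    exact hp.ne_one (Nat.eq_one_of_dvd_coprimes hlc hpy h)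
  · exact hp.ne_one (Nat.eq_one_of_dvd_coprimes hxy
      ((ZMod.natCast_eq_zero_iff x p).1 (pow_eq_zero_iff'.1 h).1) hpy)

/-- One class modulo `d` up to `n`. -/
theorem class_card {n d : ℕ} (S : Finset ℕ) (hS : ∀ a ∈ S, a ≤ n)
    (h : ∀ a ∈ S, ∀ a' ∈ S, a ≡ a' [MOD d]) : (S.card : ℝ) ≤ (n : ℝ) / d + 1 := by
  have hcard : S.card ≤ n / d + 1 := by
    refine (card_le_card_of_injOn (fun a => a / d) (t := range (n / d + 1)) (fun a ha => ?_)
      fun a ha a' ha' e => ?_).trans_eq (card_range _)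
    · simpa using Nat.lt_succ_of_le (Nat.div_le_div_right (hS a ha))
    · simp only at e
      rw [← Nat.div_add_mod a d, ← Nat.div_add_mod a' d, h a ha a' ha', e]
  calc (S.card : ℝ) ≤ ((n / d + 1 : ℕ) : ℝ) := Nat.cast_le.2 hcard
    _ ≤ _ := by push_cast; linarith [Nat.cast_div_le (α := ℝ) (m := n) (n := d)]

/-- The coprime pairs with an ordinate `≡ 1` modulo `W`. -/
def pairs (W n : ℕ) : Finset (ℕ × ℕ) :=
  (Icc 1 n ×ˢ (range n).image fun b => W * b + 1).filter fun w => w.1.Coprime w.2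

theorem mem_pairs {W n : ℕ} {w : ℕ × ℕ} (hw : w ∈ pairs W n) :
    1 ≤ w.1 ∧ w.1 ≤ n ∧ 1 ≤ w.2 ∧ w.2 ≤ (W + 1) * n ∧ w.1.Coprime w.2 ∧ w.2.Coprime W := by
  obtain ⟨h1, h2⟩ := mem_filter.1 hw
  obtain ⟨hx, hy⟩ := mem_product.1 h1
  obtain ⟨b, hb, hb'⟩ := mem_image.1 hy
  rw [mem_range] at hb
  rw [mem_Icc] at hx
  have : W * b ≤ W * n := Nat.mul_le_mul_left W hb.le
  refine ⟨hx.1, hx.2, by omega, by rw [add_mul, one_mul]; omega, h2, ?_⟩
  rw [← hb']
  simp

/-- The absolute value of the form. -/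
def value (f : ℤ[X]) (w : ℕ × ℕ) : ℕ :=
  (Thue.form f w.1 w.2).natAbs

theorem value_le (f : ℤ[X]) {P : ℕ} {w : ℕ × ℕ} (h1 : w.1 ≤ P) (h2 : w.2 ≤ P) :
    value f w ≤ (∑ i ∈ range (f.natDegree + 1), (f.coeff i).natAbs) * P ^ f.natDegree := by
  rw [value, Thue.form, sum_mul]
  refine (Int.natAbs_sum_le _ _).trans (sum_le_sum fun i hi => ?_)
  rw [Int.natAbs_mul, Int.natAbs_mul, Int.natAbs_pow, Int.natAbs_pow, Int.natAbs_natCast,
    Int.natAbs_natCast, mul_assoc]
  refine Nat.mul_le_mul_left _ ?_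
  calc w.1 ^ i * w.2 ^ (f.natDegree - i) ≤ P ^ i * P ^ (f.natDegree - i) :=
        Nat.mul_le_mul (Nat.pow_le_pow_left h1 _) (Nat.pow_le_pow_left h2 _)
    _ = _ := by rw [← pow_add, Nat.add_sub_cancel' (Nat.lt_succ_iff.1 (mem_range.1 hi))]

variable {Q : ℕ}

/-- A prime power divides few values. -/
theorem pow_dvd_card {W n p a : ℕ} (hW : W = f.leadingCoeff.natAbs) (hp : p.Prime) (ha : 1 ≤ a)
    (hQ : rootMod f (p ^ a) ≤ Q) :
    (((pairs W n).filter fun w => p ^ a ∣ value f w).card : ℝ) ≤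
      n * (Q * ((n : ℝ) / (p ^ a : ℕ) + 1)) := by
  set d := p ^ a
  have hd : 0 < d := pow_pos hp.pos a
  have : NeZero d := ⟨hd.ne'⟩
  set F : ℕ → Finset ℕ := fun y =>
    (Icc 1 n).filter fun x => x.Coprime y ∧ y.Coprime W ∧ d ∣ value f (x, y) with hF
  have hsub : (pairs W n).filter (fun w => d ∣ value f w) ⊆
      ((range n).image fun b => W * b + 1).biUnion fun y => (F y).image fun x => (x, y) := by
    intro w hw
    obtain ⟨hw1, hw2⟩ := mem_filter.1 hw
    obtain ⟨h1, h2, -, -, h5, h6⟩ := mem_pairs hw1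
    exact mem_biUnion.2 ⟨w.2, (mem_product.1 (mem_filter.1 hw1).1).2, mem_image.2
      ⟨w.1, mem_filter.2 ⟨mem_Icc.2 ⟨h1, h2⟩, h5, h6, hw2⟩, rfl⟩⟩
  have hfib : ∀ y, ((F y).card : ℝ) ≤ Q * ((n : ℝ) / d + 1) := by
    intro y
    have hmem : ∀ x ∈ F y, y.Coprime d ∧ (d : ℤ) ∣ f.eval (ratioMod d x y : ℤ) := fun x hx => by
      obtain ⟨-, h1, h2, h3⟩ := mem_filter.1 hx
      have h4 : (d : ℤ) ∣ Thue.form f x y := Int.natCast_dvd.2 h3
      have hy : y.Coprime d := (coprime_snd hp h1 (hW ▸ h2)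
        ((Int.natCast_dvd_natCast.2 (dvd_pow_self p (by omega))).trans h4)).pow_right a
      exact ⟨hy, ratioMod_root hd hy h4⟩
    calc ((F y).card : ℝ)
        = ∑ r ∈ (F y).image (fun x => ratioMod d x y),
            (((F y).filter fun x => ratioMod d x y = r).card : ℝ) := by
          exact_mod_cast card_eq_sum_card_image (fun x => ratioMod d x y) (F y)
      _ ≤ ∑ _r ∈ (F y).image (fun x => ratioMod d x y), ((n : ℝ) / d + 1) := by
          refine sum_le_sum fun r _ => class_card _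
            (fun x hx => (mem_Icc.1 (mem_filter.1 (mem_filter.1 hx).1).1).2) fun x hx x' hx' => ?_
          obtain ⟨hxF, hxr⟩ := mem_filter.1 hx
          obtain ⟨hxF', hxr'⟩ := mem_filter.1 hx'
          rw [← ZMod.natCast_eq_natCast_iff, ← ratioMod_mul hd (hmem x hxF).1,
            ← ratioMod_mul (x := x') hd (hmem x hxF).1, hxr, hxr']
      _ ≤ Q * ((n : ℝ) / d + 1) := by
          rw [sum_const, nsmul_eq_mul]
          refine mul_le_mul_of_nonneg_right (Nat.cast_le.2 (le_trans (card_le_card ?_) hQ))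
            (by positivity)
          intro r hr
          obtain ⟨x, hx, rfl⟩ := mem_image.1 hr
          exact mem_filter.2 ⟨mem_range.2 (ZMod.val_lt _), (hmem x hx).2⟩
  calc (((pairs W n).filter fun w => d ∣ value f w).card : ℝ)
      ≤ ∑ y ∈ (range n).image (fun b => W * b + 1), ((F y).card : ℝ) := by
        exact_mod_cast (card_le_card hsub).trans
          (card_biUnion_le.trans (sum_le_sum fun y _ => card_image_le))
    _ ≤ ∑ _y ∈ (range n).image (fun b => W * b + 1), Q * ((n : ℝ) / d + 1) :=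
        sum_le_sum fun y _ => hfib y
    _ ≤ _ := by
        rw [sum_const, nsmul_eq_mul]
        exact mul_le_mul_of_nonneg_right (Nat.cast_le.2 (card_image_le.trans_eq (card_range n)))
          (by positivity)

/-- The logarithm of the part composed of primes up to `z`. -/
def smoothLog (z m : ℕ) : ℝ :=
  ∑ p ∈ (Icc 1 z).filter Nat.Prime, (m.factorization p : ℝ) * Real.log p

theorem smoothLog_nonneg (z m : ℕ) : 0 ≤ smoothLog z m :=
  sum_nonneg fun _ _ => mul_nonneg (Nat.cast_nonneg _) (Real.log_natCast_nonneg _)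

theorem factorization_eq_card {m A p : ℕ} (hm : m ≠ 0) (hp : p.Prime) (hA : m < 2 ^ (A + 1)) :
    m.factorization p = ((Icc 1 A).filter fun a => p ^ a ∣ m).card := by
  have hle : m.factorization p ≤ A := by
    by_contra h
    have h1 := Nat.le_of_dvd (Nat.pos_of_ne_zero hm)
      ((pow_dvd_pow p (not_le.1 h)).trans (Nat.ordProj_dvd m p))
    have h2 : 2 ^ (A + 1) ≤ p ^ (A + 1) := Nat.pow_le_pow_left hp.two_le _
    rw [Nat.succ_eq_add_one] at h1
    omega
  have e : ((Icc 1 A).filter fun a => p ^ a ∣ m) = Icc 1 (m.factorization p) := by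
    ext a
    simp only [mem_filter, mem_Icc, hp.pow_dvd_iff_le_factorization hm]
    omega
  rw [e, Nat.card_Icc]
  omega

/-- **The first moment of the smooth part.** -/
theorem smoothLog_sum_le {W n z A : ℕ} (hW : W = f.leadingCoeff.natAbs)
    (hQ : ∀ p : ℕ, p.Prime → ∀ a : ℕ, rootMod f (p ^ a) ≤ Q)
    (hne : ∀ w ∈ pairs W n, value f w ≠ 0)
    (hA : ∀ w ∈ pairs W n, value f w < 2 ^ (A + 1)) :
    ∑ w ∈ pairs W n, smoothLog z (value f w) ≤
      2 * Q * (n : ℝ) ^ 2 * (Real.log z + 6) + Q * n * A * ((z : ℝ) * z) := by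
  set P := (Icc 1 z).filter Nat.Prime with hP
  have hcomm : ∑ w ∈ pairs W n, smoothLog z (value f w) = ∑ p ∈ P,
      Real.log p * ∑ a ∈ Icc 1 A, (((pairs W n).filter fun w => p ^ a ∣ value f w).card : ℝ) := by
    simp only [smoothLog, ← hP]
    rw [sum_comm]
    refine sum_congr rfl fun p hp => ?_
    have hp' := (mem_filter.1 hp).2
    rw [mul_sum, sum_congr rfl fun w hw => by
      rw [factorization_eq_card (hne w hw) hp' (hA w hw), card_filter]]
    push_cast
    simp only [card_filter, sum_mul]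
    rw [sum_comm]
    refine sum_congr rfl fun a _ => ?_
    push_cast
    rw [mul_sum]
    exact sum_congr rfl fun w _ => mul_comm _ _
  have hterm : ∀ p ∈ P,
      Real.log p * ∑ a ∈ Icc 1 A, (((pairs W n).filter fun w => p ^ a ∣ value f w).card : ℝ) ≤
      2 * Q * (n : ℝ) ^ 2 * (Real.log p / p) + Q * n * A * z := by
    intro p hp
    obtain ⟨hpz, hp'⟩ := mem_filter.1 hp
    have hp2 : (2 : ℝ) ≤ p := Nat.ofNat_le_cast.2 hp'.two_le
    have hl : 0 ≤ Real.log p := Real.log_natCast_nonneg p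
    have hgeo : ∑ a ∈ Icc 1 A, ((p : ℝ) ^ a)⁻¹ ≤ 2 / p := by
      rw [show Icc 1 A = Ico 1 (A + 1) from (Finset.Ico_add_one_right_eq_Icc 1 A).symm,
        sum_Ico_eq_sum_range, Nat.add_sub_cancel]
      calc ∑ i ∈ range A, ((p : ℝ) ^ (1 + i))⁻¹
          ≤ ∑ i ∈ range A, (p : ℝ)⁻¹ * (1 / 2) ^ i := sum_le_sum fun i _ => by
            rw [pow_add, pow_one, mul_inv, one_div, inv_pow]
            exact mul_le_mul_of_nonneg_left
              (inv_anti₀ (by positivity) (pow_le_pow_left₀ (by norm_num) hp2 i)) (by positivity)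
        _ ≤ (p : ℝ)⁻¹ * 2 := by
            rw [← mul_sum]
            exact mul_le_mul_of_nonneg_left (sum_geometric_two_le A) (by positivity)
        _ = _ := by ring
    have hlz : Real.log p ≤ z := (Real.log_le_self (by linarith)).trans
      (Nat.cast_le.2 (mem_Icc.1 hpz).2)
    calc Real.log p * ∑ a ∈ Icc 1 A, (((pairs W n).filter fun w => p ^ a ∣ value f w).card : ℝ)
        ≤ Real.log p * ∑ a ∈ Icc 1 A, ((Q : ℝ) * n ^ 2 * ((p : ℝ) ^ a)⁻¹ + Q * n) := by
          refine mul_le_mul_of_nonneg_left (sum_le_sum fun a ha => ?_) hl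
          refine (pow_dvd_card hW hp' (mem_Icc.1 ha).1 (hQ p hp' a)).trans_eq ?_
          push_cast
          ring
      _ = (Q : ℝ) * n ^ 2 * (Real.log p * ∑ a ∈ Icc 1 A, ((p : ℝ) ^ a)⁻¹) +
          Q * n * A * Real.log p := by
          rw [sum_add_distrib, ← mul_sum, sum_const, Nat.card_Icc, nsmul_eq_mul,
            Nat.add_sub_cancel]
          ring
      _ ≤ (Q : ℝ) * n ^ 2 * (Real.log p * (2 / p)) + Q * n * A * z := by gcongr
      _ = _ := by ring
  rw [hcomm]
  refine (sum_le_sum hterm).trans ?_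
  rw [sum_add_distrib, ← mul_sum, sum_const, nsmul_eq_mul]
  refine add_le_add (mul_le_mul_of_nonneg_left (CasselsHurwitz.sum_log_div_primes_le z)
    (by positivity)) ?_
  calc (P.card : ℝ) * (Q * n * A * z) ≤ (z : ℝ) * (Q * n * A * z) := by
        refine mul_le_mul_of_nonneg_right (Nat.cast_le.2 ?_) (by positivity)
        exact (card_filter_le _ _).trans_eq (by simp)
    _ = _ := by ring

/-- There are enough coprime pairs. -/
theorem pairs_card_ge {W n : ℕ} (hW : 0 < W) :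
    (n : ℝ) ^ 2 / 4 - 2 * n * (Real.log n + 6) ≤ ((pairs W n).card : ℝ) := by
  set B := Icc 1 n ×ˢ (range n).image fun b => W * b + 1
  set P := (Icc 1 n).filter Nat.Prime with hP
  set bad : ℕ → Finset (ℕ × ℕ) := fun p => ((Icc 1 n).filter (p ∣ ·)) ×ˢ
    (((range n).filter fun b => p ∣ W * b + 1).image fun b => W * b + 1)
  have hcover : B ⊆ pairs W n ∪ P.biUnion bad := by
    intro w hw
    by_cases h : w.1.Coprime w.2
    · exact mem_union_left _ (mem_filter.2 ⟨hw, h⟩)
    obtain ⟨p, hp, hp1, hp2⟩ := Nat.Prime.not_coprime_iff_dvd.1 h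
    obtain ⟨hx, hy⟩ := mem_product.1 hw
    obtain ⟨b, hb, hb'⟩ := mem_image.1 hy
    obtain ⟨hx1, hx2⟩ := mem_Icc.1 hx
    refine mem_union_right _ (mem_biUnion.2 ⟨p, mem_filter.2
      ⟨mem_Icc.2 ⟨hp.one_le, (Nat.le_of_dvd (by omega) hp1).trans hx2⟩, hp⟩,
      mem_product.2 ⟨mem_filter.2 ⟨hx, hp1⟩, mem_image.2 ⟨b, mem_filter.2 ⟨hb, ?_⟩, hb'⟩⟩⟩)
    rwa [hb']
  have hbad : ∀ p ∈ P, ((bad p).card : ℝ) ≤
      (n : ℝ) ^ 2 * ((p : ℝ) ^ 2)⁻¹ + 2 * n * (Real.log p / p) := by
    intro p hp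
    have hp' := (mem_filter.1 hp).2
    have hp2 : (2 : ℝ) ≤ p := Nat.ofNat_le_cast.2 hp'.two_le
    have h1 : (((Icc 1 n).filter (p ∣ ·)).card : ℝ) ≤ (n : ℝ) / p := by
      rw [show Icc 1 n = Ioc 0 n from Finset.Icc_add_one_left_eq_Ioc 0 n,
        Nat.Ioc_filter_dvd_card_eq_div]
      exact Nat.cast_div_le
    have h2 : ((((range n).filter fun b => p ∣ W * b + 1).image fun b => W * b + 1).card : ℝ) ≤
        (n : ℝ) / p + 1 := by
      refine le_trans (Nat.cast_le.2 card_image_le) (class_card _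
        (fun b hb => (mem_range.1 (mem_filter.1 hb).1).le) fun b hb b' hb' => ?_)
      have e1 := (mem_filter.1 hb).2
      have e2 := (mem_filter.1 hb').2
      have hWp : Nat.gcd p W = 1 := (hp'.coprime_iff_not_dvd.2 fun hd =>
        hp'.ne_one (Nat.dvd_one.1 ((Nat.dvd_add_right (hd.mul_right b)).1 e1)))
      refine Nat.ModEq.cancel_left_of_coprime hWp (c := W) ?_
      exact Nat.ModEq.add_right_cancel' 1 ((Nat.modEq_zero_iff_dvd.2 e1).trans
        (Nat.modEq_zero_iff_dvd.2 e2).symm)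
    have hl2 : (1 : ℝ) / 2 ≤ Real.log p := by
      have := Real.log_two_gt_d9
      linarith [Real.log_le_log two_pos hp2]
    simp only [bad, card_product, Nat.cast_mul]
    refine (mul_le_mul h1 h2 (Nat.cast_nonneg _) (by positivity)).trans ?_
    have e3 : (n : ℝ) / p ≤ 2 * n * (Real.log p / p) := by
      rw [mul_div_assoc']
      refine div_le_div_of_nonneg_right ?_ (by positivity)
      have : (0 : ℝ) ≤ n := Nat.cast_nonneg n
      nlinarith
    linarith [show (n : ℝ) / p * ((n : ℝ) / p + 1) =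
      (n : ℝ) ^ 2 * ((p : ℝ) ^ 2)⁻¹ + (n : ℝ) / p by ring]
  have hsq : ∑ p ∈ P, ((p : ℝ) ^ 2)⁻¹ ≤ 3 / 4 := by
    have hsub : P ⊆ insert 2 (Ioc 2 (max n 2)) := fun p hp => by
      obtain ⟨hp1, hp2⟩ := mem_filter.1 hp
      have := hp2.two_le
      simp only [mem_Icc] at hp1
      simp only [mem_insert, mem_Ioc]
      omega
    refine (sum_le_sum_of_subset_of_nonneg hsub fun p _ _ => by positivity).trans ?_
    rw [sum_insert (by simp)]
    have h := sum_Ioc_inv_sq_le_sub (α := ℝ) (k := 2) (by norm_num) (le_max_right n 2)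
    have h0 : (0 : ℝ) ≤ ((max n 2 : ℕ) : ℝ)⁻¹ := by positivity
    push_cast at h h0 ⊢
    norm_num at h ⊢
    linarith
  have hB : B.card = n * n := by
    rw [card_product, card_image_of_injective _ (fun a b h => by
      exact Nat.eq_of_mul_eq_mul_left hW (Nat.add_right_cancel h)), card_range, Nat.card_Icc,
      Nat.add_sub_cancel]
  have h : (n : ℝ) * n ≤ ((pairs W n).card : ℝ) + ∑ p ∈ P, ((bad p).card : ℝ) := by
    rw [← Nat.cast_mul, ← hB]
    exact_mod_cast (card_le_card hcover).trans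
      ((card_union_le _ _).trans (Nat.add_le_add_left card_biUnion_le _))
  have h2 := sum_le_sum hbad
  rw [sum_add_distrib, ← mul_sum, ← mul_sum] at h2
  have h3 := mul_le_mul_of_nonneg_left hsq (sq_nonneg (n : ℝ))
  have h4 := mul_le_mul_of_nonneg_left (CasselsHurwitz.sum_log_div_primes_le n)
    (show (0 : ℝ) ≤ 2 * n by positivity)
  linarith [show (n : ℝ) * n = (n : ℝ) ^ 2 by ring]

end FA.ErdosMahler

end
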