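import Fermat.Agent.ErdosMahler.Local
import Fermat.Agent.MahlerArea.Main

/-!
# The theorem of Erdős and Mahler

For most pairs the part of `F (x, y)` made of primes above `n ^ δ` exceeds `n ^ (9/4)` and has
boundedly many primes; two pairs with the same residues modulo it have determinant zero, so every
value has boundedly many pairs.
-/

set_option autoImplicit false

noncomputable section

open Polynomial Finset Filter
open scoped Topology

namespace FA.ErdosMahler

open FA.RichertValues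

variable {f : ℤ[X]}

theorem separable_of_irreducible (hirr : Irreducible f) (hdeg : 3 ≤ f.natDegree) :
    (f.map (Int.castRingHom ℂ)).Separable ∧
      ∀ r : ℚ, (f.map (Int.castRingHom ℚ)).eval r ≠ 0 := by
  have hirrQ : Irreducible (f.map (Int.castRingHom ℚ)) :=
    (IsPrimitive.Int.irreducible_iff_irreducible_map_cast (hirr.isPrimitive (by omega))).1 hirr
  have hdegQ : (f.map (Int.castRingHom ℚ)).natDegree = f.natDegree :=
    natDegree_map_eq_of_injective Int.cast_injective f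
  refine ⟨?_, fun r hr => ?_⟩
  · have := hirrQ.separable.map (f := algebraMap ℚ ℂ)
    rwa [Polynomial.map_map,
      Subsingleton.elim ((algebraMap ℚ ℂ).comp (Int.castRingHom ℚ)) (Int.castRingHom ℂ)] at this
  · have h : (f.map (Int.castRingHom ℚ)).natDegree = 1 := natDegree_eq_of_degree_eq_some
      (by simpa using degree_eq_one_of_irreducible_of_root hirrQ (show IsRoot _ r from hr))
    omega

theorem value_ne_zero (hirr : Irreducible f) (hdeg : 3 ≤ f.natDegree) {W n : ℕ} {w : ℕ × ℕ}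
    (hw : w ∈ pairs W n) : value f w ≠ 0 := by
  obtain ⟨-, -, hy, -⟩ := mem_pairs hw
  rw [value, Int.natAbs_ne_zero]
  intro h
  have h' := Thue.form_eq_mul (K := ℚ) f (w.1 : ℤ) (w.2 : ℤ) (by omega)
  rw [h, Int.cast_zero] at h'
  rcases mul_eq_zero.1 h'.symm with h1 | h1
  · exact absurd (pow_eq_zero_iff'.1 h1).1 (by exact_mod_cast (show w.2 ≠ 0 by omega))
  · exact (separable_of_irreducible hirr hdeg).2 _ h1

/-- The primes above `z` dividing `m`. -/
def largePrimes (z m : ℕ) : Finset ℕ :=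
  m.primeFactors.filter (z < ·)

/-- The part of `m` made of them. -/
def roughPart (z m : ℕ) : ℕ :=
  ∏ p ∈ largePrimes z m, p ^ m.factorization p

theorem log_split {z m : ℕ} :
    Real.log m ≤ Real.log (roughPart z m) + smoothLog z m := by
  rw [Real.log_nat_eq_sum_factorization, Finsupp.sum, Nat.support_factorization]
  rw [← sum_filter_add_sum_filter_not m.primeFactors (z < ·)
    (f := fun p => (m.factorization p : ℝ) * Real.log p)]
  refine add_le_add (le_of_eq ?_) (sum_le_sum_of_subset_of_nonneg (fun p hp => ?_)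
    fun p _ _ => mul_nonneg (Nat.cast_nonneg _) (Real.log_natCast_nonneg p))
  · rw [roughPart, Nat.cast_prod, Real.log_prod (fun p hp => ?_)]
    · refine sum_congr rfl fun p _ => ?_
      rw [Nat.cast_pow, Real.log_pow]
    · have := (Nat.prime_of_mem_primeFactors (mem_filter.1 hp).1).pos
      positivity
  · obtain ⟨hp1, hp2⟩ := mem_filter.1 hp
    have hp' := Nat.prime_of_mem_primeFactors hp1
    exact mem_filter.2 ⟨mem_Icc.2 ⟨hp'.one_le, not_lt.1 hp2⟩, hp'⟩

theorem largePrimes_log_le {z m : ℕ} (hm : m ≠ 0) {L : ℝ}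
    (hL : ∀ p : ℕ, z < p → L ≤ Real.log p) :
    ((largePrimes z m).card : ℝ) * L ≤ Real.log m := by
  rw [Real.log_nat_eq_sum_factorization, Finsupp.sum, Nat.support_factorization, ← nsmul_eq_mul,
    ← sum_const]
  refine (sum_le_sum (f := fun _ : ℕ => L) fun p hp => ?_).trans
    (sum_le_sum_of_subset_of_nonneg (filter_subset _ _)
      fun p _ _ => mul_nonneg (Nat.cast_nonneg _) (Real.log_natCast_nonneg p))
  obtain ⟨hp1, hp2⟩ := mem_filter.1 hp
  refine (hL p hp2).trans (le_mul_of_one_le_left (Real.log_natCast_nonneg p) ?_)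
  exact Nat.one_le_cast.2 ((Nat.prime_of_mem_primeFactors hp1).factorization_pos_of_dvd hm
    (Nat.dvd_of_mem_primeFactors hp1))

/-- **A value with a large part of few primes has few pairs.** -/
theorem fibre_card {W n z T Q m : ℕ} (hW : W = f.leadingCoeff.natAbs)
    (hQ : ∀ p : ℕ, p.Prime → ∀ a : ℕ, rootMod f (p ^ a) ≤ Q) (S : Finset (ℕ × ℕ))
    (hS : S ⊆ pairs W n) (hval : ∀ w ∈ S, value f w = m)
    (hT : (largePrimes z m).card ≤ T) (hbig : n * ((W + 1) * n) < roughPart z m) :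
    S.card ≤ (Q + 1) ^ T := by
  classical
  set Ps := largePrimes z m
  set d : ℕ → ℕ := fun p => p ^ m.factorization p
  have hp : ∀ p ∈ Ps, p.Prime := fun p hp => Nat.prime_of_mem_primeFactors (mem_filter.1 hp).1
  have hd : ∀ p ∈ Ps, 0 < d p := fun p hp' => pow_pos (hp p hp').pos _
  have hdata : ∀ w ∈ S, ∀ p ∈ Ps,
      w.2.Coprime (d p) ∧ ((d p : ℕ) : ℤ) ∣ Thue.form f w.1 w.2 := by
    intro w hw p hp'
    have h1 : ((d p : ℕ) : ℤ) ∣ Thue.form f w.1 w.2 := Int.natCast_dvd.2 (by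
      show d p ∣ value f w
      rw [hval w hw]
      exact Nat.ordProj_dvd m p)
    obtain ⟨-, -, -, -, h5, h6⟩ := mem_pairs (hS hw)
    have hm := Nat.mem_primeFactors.1 (mem_filter.1 hp').1
    exact ⟨(coprime_snd (hp p hp') h5 (hW ▸ h6) ((Int.natCast_dvd_natCast.2 (dvd_pow_self p
      (hm.1.factorization_pos_of_dvd hm.2.2 hm.2.1).ne')).trans h1)).pow_right _, h1⟩
  refine (card_le_card_of_injOn (fun w p (_ : p ∈ Ps) => ratioMod (d p) w.1 w.2)
    (t := Ps.pi fun p => (range (d p)).filter fun r : ℕ => ((d p : ℕ) : ℤ) ∣ f.eval (r : ℤ))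
    (fun w hw => mem_pi.2 fun p hp' => ?_) fun w hw w' hw' e => ?_).trans ?_
  · have : NeZero (d p) := ⟨(hd p hp').ne'⟩
    exact mem_filter.2 ⟨mem_range.2 (ZMod.val_lt _),
      ratioMod_root (hd p hp') (hdata w hw p hp').1 (hdata w hw p hp').2⟩
  · obtain ⟨hx1, hx2, hy1, hy2, hc, -⟩ := mem_pairs (hS hw)
    obtain ⟨hx1', hx2', hy1', hy2', hc', -⟩ := mem_pairs (hS hw')
    have hdvd : ∀ p ∈ Ps, ((d p : ℕ) : ℤ) ∣ (w.1 : ℤ) * w'.2 - w'.1 * w.2 := fun p hp' => by
      have e' : ratioMod (d p) w.1 w.2 = ratioMod (d p) w'.1 w'.2 := congrFun (congrFun e p) hp'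
      rw [← ZMod.intCast_zmod_eq_zero_iff_dvd]
      push_cast
      rw [← ratioMod_mul (x := w.1) (hd p hp') (hdata w hw p hp').1,
        ← ratioMod_mul (x := w'.1) (hd p hp') (hdata w' hw' p hp').1, e']
      ring
    have hprod : (roughPart z m : ℤ) ∣ (w.1 : ℤ) * w'.2 - w'.1 * w.2 := by
      rw [roughPart, Nat.cast_prod]
      refine Finset.prod_dvd_of_coprime (fun p hp' q hq hne => ?_) hdvd
      show IsCoprime ((d p : ℕ) : ℤ) ((d q : ℕ) : ℤ)
      exact Int.isCoprime_iff_nat_coprime.2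
        (by simpa using (Nat.coprime_primes (hp p hp') (hp q hq)).2 hne |>.pow _ _)
    have hdet : (w.1 : ℤ) * w'.2 - w'.1 * w.2 = 0 := by
      refine Int.eq_zero_of_abs_lt_dvd hprod ?_
      have h1 : w.1 * w'.2 ≤ n * ((W + 1) * n) := Nat.mul_le_mul hx2 hy2'
      have h2 : w'.1 * w.2 ≤ n * ((W + 1) * n) := Nat.mul_le_mul hx2' hy2
      zify at h1 h2 hbig
      rw [abs_lt]
      constructor <;> linarith [mul_nonneg (Int.natCast_nonneg w.1) (Int.natCast_nonneg w'.2),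
        mul_nonneg (Int.natCast_nonneg w'.1) (Int.natCast_nonneg w.2)]
    have he : w.1 * w'.2 = w'.1 * w.2 := by exact_mod_cast sub_eq_zero.1 hdet
    have h1 : w.1 = w'.1 := Nat.dvd_antisymm (hc.dvd_of_dvd_mul_right ⟨w'.2, he.symm⟩)
      (hc'.dvd_of_dvd_mul_right ⟨w.2, he⟩)
    refine Prod.ext h1 (Nat.eq_of_mul_eq_mul_left hx1 ?_)
    rw [he, h1]
  · rw [card_pi]
    calc ∏ p ∈ Ps, ((range (d p)).filter fun r : ℕ => ((d p : ℕ) : ℤ) ∣ f.eval (r : ℤ)).card
        ≤ ∏ _p ∈ Ps, (Q + 1) :=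
          prod_le_prod' fun p hp' => (hQ p (hp p hp') _).trans (Nat.le_succ Q)
      _ = (Q + 1) ^ Ps.card := prod_const _
      _ ≤ _ := Nat.pow_le_pow_right (Nat.succ_pos Q) hT

/-- The pairs whose value has a small smooth part and is not small. -/
def goodSet (f : ℤ[X]) (δ : ℝ) (n : ℕ) : Finset (ℕ × ℕ) :=
  (pairs f.leadingCoeff.natAbs n).filter fun w =>
    smoothLog ⌊(n : ℝ) ^ δ⌋₊ (value f w) ≤ Real.log n / 4 ∧
      (n : ℝ) ^ ((f.natDegree : ℝ) - 1 / 2) < (value f w : ℝ)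

/-- **Most pairs are good.** -/
theorem eventually_goodSet_card (hirr : Irreducible f) (hdeg : 3 ≤ f.natDegree) :
    ∃ δ : ℝ, 0 < δ ∧ ∀ᶠ n : ℕ in atTop, (n : ℝ) ^ 2 / 20 ≤ ((goodSet f δ n).card : ℝ) := by
  set k := f.natDegree with hk
  obtain ⟨Q, hQ⟩ := CasselsHurwitz.exists_rootMod_pow_le hirr (by omega)
  obtain ⟨hsep, hroot⟩ := separable_of_irreducible hirr hdeg
  set W := f.leadingCoeff.natAbs with hWdef
  have hW : 0 < W :=
    Int.natAbs_pos.2 (leadingCoeff_ne_zero.2 hirr.ne_zero)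
  set K := (∑ i ∈ range (k + 1), (f.coeff i).natAbs) * (W + 1) ^ k with hK
  set δ : ℝ := min (1 / 8) (1 / (400 * ((Q : ℝ) + 1))) with hδ
  have hδ0 : 0 < δ := lt_min (by norm_num) (by positivity)
  refine ⟨δ, hδ0, ?_⟩
  have hk0 : (0 : ℝ) < k := Nat.cast_pos.2 (by omega)
  have hk3 : (3 : ℝ) ≤ k := Nat.ofNat_le_cast.2 hdeg
  obtain ⟨hfinite, hlim⟩ := MahlerArea.area_and_count hsep hroot hdeg
  set A := MeasureTheory.volume.real {v : Fin 2 → ℝ | |MahlerArea.realForm f v| ≤ 1}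
  -- few small values
  have hsmall : ∀ᶠ n : ℕ in atTop,
      (MahlerArea.valueCount f ((n : ℝ) ^ ((k : ℝ) - 1 / 2)) : ℝ) ≤ (n : ℝ) ^ 2 / 20 := by
    have hpow : Tendsto (fun n : ℕ => (n : ℝ) ^ ((k : ℝ) - 1 / 2)) atTop atTop :=
      (tendsto_rpow_atTop (by linarith)).comp tendsto_natCast_atTop_atTop
    have hA := (hlim.comp hpow).eventually (eventually_le_nhds (lt_add_one A))
    have h2 := ((tendsto_rpow_neg_atTop (show (0 : ℝ) < 1 / k by positivity)).comp
      tendsto_natCast_atTop_atTop).const_mul (A + 1)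
    rw [mul_zero] at h2
    filter_upwards [hA, h2.eventually (eventually_le_nhds (show (0 : ℝ) < 1 / 20 by norm_num)),
      eventually_gt_atTop 0] with n h1 h3 hn
    have hn' : (0 : ℝ) < n := Nat.cast_pos.2 hn
    simp only [Function.comp_apply] at h1 h3
    rw [div_le_iff₀ (by positivity)] at h1
    refine h1.trans ?_
    rw [← Real.rpow_mul hn'.le, show ((k : ℝ) - 1 / 2) * (2 / k) = -(1 / k) + 2 by
      field_simp; ring, Real.rpow_add hn', Real.rpow_two, ← mul_assoc]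
    calc (A + 1) * (n : ℝ) ^ (-(1 / k : ℝ)) * (n : ℝ) ^ 2 ≤ 1 / 20 * (n : ℝ) ^ 2 :=
          mul_le_mul_of_nonneg_right h3 (sq_nonneg _)
      _ = _ := by ring
  -- growth
  set E : ℝ := 2 * (Real.log ((K : ℝ) + 1) + 4 * k) with hE
  have hroot4 : ∀ᶠ n : ℕ in atTop, (Q : ℝ) * E ≤ (n : ℝ) ^ (1 / 2 : ℝ) :=
    ((tendsto_rpow_atTop (by norm_num)).comp tendsto_natCast_atTop_atTop).eventually
      (eventually_ge_atTop _)
  have hlog : ∀ᶠ n : ℕ in atTop, 200 * (12 * (Q : ℝ) + 1) ≤ Real.log n :=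
    (Real.tendsto_log_atTop.comp tendsto_natCast_atTop_atTop).eventually (eventually_ge_atTop _)
  have hlin : ∀ᶠ n : ℕ in atTop, 40 * (Real.log n + 6) ≤ (n : ℝ) := by
    filter_upwards [(Real.isLittleO_log_id_atTop.comp_tendsto
      tendsto_natCast_atTop_atTop).bound (show (0 : ℝ) < 1 / 80 by norm_num),
      eventually_ge_atTop 480] with n h hn
    simp only [Function.comp_apply, id, Real.norm_eq_abs] at h
    rw [abs_of_nonneg (Real.log_natCast_nonneg n), abs_of_nonneg (Nat.cast_nonneg n)] at h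
    have : (480 : ℝ) ≤ n := Nat.ofNat_le_cast.2 hn
    linarith
  filter_upwards [hsmall, hroot4, hlog, hlin, eventually_ge_atTop 1] with n hsm hr4 hl hn6 hn
  have hn' : (1 : ℝ) ≤ n := Nat.one_le_cast.2 hn
  have hn0 : (0 : ℝ) < n := by linarith
  have hl0 : 0 < Real.log n := by
    have : (0 : ℝ) ≤ Q := Nat.cast_nonneg Q
    linarith
  set z := ⌊(n : ℝ) ^ δ⌋₊ with hz
  have hzle : (z : ℝ) ≤ (n : ℝ) ^ δ := Nat.floor_le (by positivity)
  have hzlog : Real.log z ≤ δ * Real.log n := by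
    rcases Nat.eq_zero_or_pos z with h | h
    · rw [h, Nat.cast_zero, Real.log_zero]; positivity
    · rw [← Real.log_rpow hn0]
      exact Real.log_le_log (Nat.cast_pos.2 h) hzle
  have hne : ∀ w ∈ pairs W n, value f w ≠ 0 := fun w hw => value_ne_zero hirr hdeg hw
  have hval : ∀ w ∈ pairs W n, value f w ≤ K * n ^ k := fun w hw => by
    obtain ⟨-, h2, -, h4, -⟩ := mem_pairs hw
    refine (value_le f (P := (W + 1) * n)
      (h2.trans (Nat.le_mul_of_pos_left n (Nat.succ_pos W))) h4).trans_eq ?_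
    rw [hK, mul_pow]
    ring
  set Amax := Nat.log 2 ((K + 1) * n ^ k) with hAmax
  have hA : ∀ w ∈ pairs W n, value f w < 2 ^ (Amax + 1) := fun w hw =>
    lt_of_le_of_lt ((hval w hw).trans (Nat.mul_le_mul_right _ (Nat.le_succ K)))
      (Nat.lt_pow_succ_log_self one_lt_two _)
  have hfirst := smoothLog_sum_le (z := z) (A := Amax) hWdef hQ hne hA
  have hAreal : (Amax : ℝ) ≤ E * (n : ℝ) ^ (1 / 4 : ℝ) := by
    have h1 : (2 : ℝ) ^ Amax ≤ ((K : ℝ) + 1) * (n : ℝ) ^ k := by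
      have h := Nat.pow_log_le_self 2 (show (K + 1) * n ^ k ≠ 0 by positivity)
      rw [← hAmax] at h
      exact_mod_cast h
    have h2 := Real.log_le_log (by positivity) h1
    rw [Real.log_pow, Real.log_mul (by positivity) (by positivity), Real.log_pow] at h2
    have h3 : Real.log (n : ℝ) ≤ (n : ℝ) ^ (1 / 4 : ℝ) / (1 / 4) :=
      Real.log_le_rpow_div hn0.le (by norm_num)
    have h4 : (1 : ℝ) ≤ (n : ℝ) ^ (1 / 4 : ℝ) := Real.one_le_rpow hn' (by norm_num)
    have h5 := Real.log_two_gt_d9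
    have h6 : 0 ≤ Real.log ((K : ℝ) + 1) := Real.log_nonneg (by
      have : (0 : ℝ) ≤ K := Nat.cast_nonneg K
      linarith)
    have h7 : (0 : ℝ) ≤ (Amax : ℝ) := Nat.cast_nonneg _
    have h8 := mul_le_mul_of_nonneg_left h3 hk0.le
    have h9 := mul_le_mul_of_nonneg_left h4 h6
    have h10 := mul_le_mul_of_nonneg_left h5.le h7
    rw [hE]
    nlinarith
  have hzz : (z : ℝ) * z ≤ (n : ℝ) ^ (1 / 4 : ℝ) := by
    refine (mul_le_mul hzle hzle (Nat.cast_nonneg _) (by positivity)).trans ?_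
    rw [← Real.rpow_add hn0]
    exact Real.rpow_le_rpow_of_exponent_le hn'
      (by linarith [min_le_left (1 / 8 : ℝ) (1 / (400 * ((Q : ℝ) + 1)))])
  have herr : (Q : ℝ) * n * Amax * ((z : ℝ) * z) ≤ (n : ℝ) ^ 2 := by
    have h1 : (n : ℝ) ^ (1 / 4 : ℝ) * (n : ℝ) ^ (1 / 4 : ℝ) = (n : ℝ) ^ (1 / 2 : ℝ) := by
      rw [← Real.rpow_add hn0]; norm_num
    have h2 : (n : ℝ) ^ (1 / 2 : ℝ) * (n : ℝ) ^ (1 / 2 : ℝ) = n := by
      rw [← Real.rpow_add hn0]; norm_num
    have hE0 : 0 ≤ E := by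
      rw [hE]
      have : 0 ≤ Real.log ((K : ℝ) + 1) := Real.log_nonneg (by
        have : (0 : ℝ) ≤ K := Nat.cast_nonneg K
        linarith)
      positivity
    calc (Q : ℝ) * n * Amax * ((z : ℝ) * z)
        ≤ (Q : ℝ) * n * (E * (n : ℝ) ^ (1 / 4 : ℝ)) * (n : ℝ) ^ (1 / 4 : ℝ) := by gcongr
      _ = (n : ℝ) * ((Q : ℝ) * E) * (n : ℝ) ^ (1 / 2 : ℝ) := by rw [← h1]; ring
      _ ≤ (n : ℝ) * (n : ℝ) ^ (1 / 2 : ℝ) * (n : ℝ) ^ (1 / 2 : ℝ) := by gcongr
      _ = _ := by rw [mul_assoc, h2]; ring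
  -- Markov
  set rough := (pairs W n).filter fun w => Real.log n / 4 < smoothLog z (value f w)
  have hmarkov : (rough.card : ℝ) ≤ (n : ℝ) ^ 2 / 25 := by
    have h1 : (rough.card : ℝ) * (Real.log n / 4) ≤
        ∑ w ∈ pairs W n, smoothLog z (value f w) := by
      rw [← nsmul_eq_mul, ← sum_const]
      exact (sum_le_sum fun w hw => (mem_filter.1 hw).2.le).trans
        (sum_le_sum_of_subset_of_nonneg (filter_subset _ _) fun w _ _ => smoothLog_nonneg _ _)
    have h2 : 2 * (Q : ℝ) * δ ≤ 1 / 200 := by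
      have h3 : δ * (400 * ((Q : ℝ) + 1)) ≤ 1 :=
        (le_div_iff₀ (by positivity)).1 (min_le_right (1 / 8 : ℝ) _)
      nlinarith
    have h4 := mul_le_mul_of_nonneg_left hzlog (show (0 : ℝ) ≤ 2 * Q * n ^ 2 by positivity)
    have h5 := mul_le_mul_of_nonneg_right h2 (show (0 : ℝ) ≤ n ^ 2 * Real.log n by positivity)
    have h6 := mul_le_mul_of_nonneg_left hl (sq_nonneg (n : ℝ))
    refine le_of_mul_le_mul_right ?_ (show (0 : ℝ) < Real.log n / 4 by positivity)
    linarith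
  -- counting
  set tiny := (pairs W n).filter fun w => (value f w : ℝ) ≤ (n : ℝ) ^ ((k : ℝ) - 1 / 2)
  have htiny : (tiny.card : ℝ) ≤ (n : ℝ) ^ 2 / 20 := by
    refine le_trans (Nat.cast_le.2 ?_) hsm
    rw [← Set.ncard_coe_finset, MahlerArea.valueCount]
    refine Set.ncard_le_ncard_of_injOn (fun w : ℕ × ℕ => ((w.1 : ℤ), (w.2 : ℤ)))
      (fun w hw => ?_) (fun a _ b _ e => ?_) ?_
    · have h := (mem_filter.1 hw).2
      rw [value, Nat.cast_natAbs] at h
      show |(Thue.form f (w.1 : ℤ) (w.2 : ℤ) : ℝ)| ≤ _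
      exact_mod_cast h
    · simp only [Prod.mk.injEq, Nat.cast_inj] at e
      exact Prod.ext e.1 e.2
    · exact (Roth.finite_small_values hsep hroot (C := (n : ℝ) ^ ((k : ℝ) - 1 / 2)) (e := 0)
        (by linarith) hdeg).subset fun p hp => by
          show |(Thue.form f p.1 p.2 : ℝ)| ≤ (n : ℝ) ^ ((k : ℝ) - 1 / 2) * _
          rwa [Real.rpow_zero, mul_one]
  have hcover : pairs W n ⊆ goodSet f δ n ∪ (rough ∪ tiny) := fun w hw => by
    by_cases h1 : smoothLog z (value f w) ≤ Real.log n / 4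
    · by_cases h2 : (n : ℝ) ^ ((k : ℝ) - 1 / 2) < (value f w : ℝ)
      · exact mem_union_left _ (mem_filter.2 ⟨hw, h1, h2⟩)
      · exact mem_union_right _ (mem_union_right _ (mem_filter.2 ⟨hw, not_lt.1 h2⟩))
    · exact mem_union_right _ (mem_union_left _ (mem_filter.2 ⟨hw, not_le.1 h1⟩))
  have hcard : ((pairs W n).card : ℝ) ≤
      (goodSet f δ n).card + ((rough.card : ℝ) + tiny.card) := by
    exact_mod_cast (card_le_card hcover).trans
      ((card_union_le _ _).trans (Nat.add_le_add_left (card_union_le _ _) _))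
  have hp := pairs_card_ge (n := n) hW
  have hnn := mul_le_mul_of_nonneg_left hn6 hn0.le
  linarith [show (n : ℝ) * n = (n : ℝ) ^ 2 by ring]

/-- The values at the good pairs. -/
def goodValues (f : ℤ[X]) (δ : ℝ) (n : ℕ) : Finset ℤ :=
  (goodSet f δ n).image fun w => Thue.form f w.1 w.2

/-- **Boundedly many good pairs share a value.** -/
theorem eventually_goodSet_fibre (hirr : Irreducible f) (hdeg : 3 ≤ f.natDegree) {δ : ℝ}
    (hδ : 0 < δ) : ∃ C : ℕ, 0 < C ∧ ∀ᶠ n : ℕ in atTop, ∀ m : ℕ,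
      ((goodSet f δ n).filter fun w => value f w = m).card ≤ C := by
  set k := f.natDegree with hk
  obtain ⟨Q, hQ⟩ := CasselsHurwitz.exists_rootMod_pow_le hirr (by omega)
  set W := f.leadingCoeff.natAbs with hWdef
  set K := (∑ i ∈ range (k + 1), (f.coeff i).natAbs) * (W + 1) ^ k with hK
  set T := ⌈((k : ℝ) + 1) / δ⌉₊
  refine ⟨(Q + 1) ^ T, pow_pos (Nat.succ_pos Q) T, ?_⟩
  have hbigev : ∀ᶠ n : ℕ in atTop, ((K : ℝ) + W + 2 : ℝ) ≤ (n : ℝ) ^ (1 / 4 : ℝ) :=
    ((tendsto_rpow_atTop (by norm_num)).comp tendsto_natCast_atTop_atTop).eventually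
      (eventually_ge_atTop _)
  filter_upwards [hbigev, eventually_ge_atTop 2] with n hbig hn m
  set S := (goodSet f δ n).filter fun w => value f w = m
  rcases S.eq_empty_or_nonempty with he | ⟨w, hw⟩
  · rw [he, card_empty]; exact Nat.zero_le _
  obtain ⟨hwg, hwm⟩ := mem_filter.1 hw
  obtain ⟨hwp, hsmooth, hlarge⟩ := mem_filter.1 hwg
  rw [hwm] at hsmooth hlarge
  have hm : m ≠ 0 := hwm ▸ value_ne_zero hirr hdeg hwp
  have hn0 : (0 : ℝ) < n := Nat.cast_pos.2 (by omega)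
  have hn1 : (1 : ℝ) < n := Nat.one_lt_cast.2 hn
  have hl : 0 < Real.log n := Real.log_pos hn1
  set z := ⌊(n : ℝ) ^ δ⌋₊
  have hk3 : (3 : ℝ) ≤ k := Nat.ofNat_le_cast.2 hdeg
  have hrough : (n : ℝ) ^ (9 / 4 : ℝ) < (roughPart z m : ℝ) := by
    have hpos : (0 : ℝ) < roughPart z m := Nat.cast_pos.2 (prod_pos fun p hp =>
      pow_pos (Nat.prime_of_mem_primeFactors (mem_filter.1 hp).1).pos _)
    rw [← Real.log_lt_log_iff (by positivity) hpos, Real.log_rpow hn0]
    have h1 := log_split (z := z) (m := m)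
    have h2 := Real.log_lt_log (by positivity) hlarge
    rw [Real.log_rpow hn0] at h2
    have h3 := mul_le_mul_of_nonneg_right hk3 hl.le
    linarith
  have hmle : (m : ℝ) ≤ (K : ℝ) * (n : ℝ) ^ k := by
    obtain ⟨-, h2, -, h4, -⟩ := mem_pairs hwp
    have h := (value_le f (P := (W + 1) * n)
      (h2.trans (Nat.le_mul_of_pos_left n (Nat.succ_pos W))) h4).trans_eq
      (show _ = K * n ^ k by rw [hK, mul_pow]; ring)
    rw [hwm] at h
    exact_mod_cast h
  have hT : (largePrimes z m).card ≤ T := by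
    have h1 := largePrimes_log_le (z := z) hm (L := δ * Real.log n) fun p hp => by
      rw [← Real.log_rpow hn0]
      exact Real.log_le_log (by positivity)
        ((Nat.lt_floor_add_one _).le.trans (by exact_mod_cast hp))
    have h2 : Real.log m ≤ ((k : ℝ) + 1) * Real.log n := by
      refine (Real.log_le_log (Nat.cast_pos.2 (Nat.pos_of_ne_zero hm)) (hmle.trans ?_)).trans_eq
        (Real.log_rpow hn0 _)
      rw [Real.rpow_add_one hn0.ne', Real.rpow_natCast, mul_comm]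
      refine mul_le_mul_of_nonneg_left ?_ (by positivity)
      have : (n : ℝ) ^ (1 / 4 : ℝ) ≤ n := Real.rpow_le_self_of_one_le hn1.le (by norm_num)
      have : (0 : ℝ) ≤ W := Nat.cast_nonneg W
      linarith
    refine Nat.cast_le (α := ℝ).1 (le_trans ?_ (Nat.le_ceil _))
    rw [le_div_iff₀ hδ]
    refine le_of_mul_le_mul_right ?_ hl
    linarith
  refine fibre_card (n := n) hWdef hQ S (fun w hw => (mem_filter.1 (mem_filter.1 hw).1).1)
    (fun w hw => (mem_filter.1 hw).2) hT ?_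
  refine Nat.cast_lt (α := ℝ).1 (lt_of_le_of_lt ?_ hrough)
  push_cast
  rw [show (9 / 4 : ℝ) = 1 / 4 + 2 by norm_num, Real.rpow_add hn0, Real.rpow_two]
  have h1 : ((W : ℝ) + 1) ≤ (n : ℝ) ^ (1 / 4 : ℝ) := by
    have : (0 : ℝ) ≤ K := Nat.cast_nonneg K
    linarith
  have h2 := mul_le_mul_of_nonneg_right h1 (sq_nonneg (n : ℝ))
  linarith [show (n : ℝ) * (((W : ℝ) + 1) * n) = ((W : ℝ) + 1) * (n : ℝ) ^ 2 by ring]

/-- **The lower bound of Erdős and Mahler.** -/
theorem represented_ge (hirr : Irreducible f) (hdeg : 3 ≤ f.natDegree) :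
    ∃ c : ℝ, 0 < c ∧ ∀ᶠ N : ℝ in atTop, c * N ^ ((2 : ℝ) / f.natDegree) ≤
      ({m : ℤ | |(m : ℝ)| ≤ N ∧ ∃ x y : ℤ, Thue.form f x y = m}.ncard : ℝ) := by
  set k := f.natDegree with hk
  obtain ⟨δ, hδ, hgood⟩ := eventually_goodSet_card hirr hdeg
  obtain ⟨C, hC, hfib⟩ := eventually_goodSet_fibre hirr hdeg hδ
  set W := f.leadingCoeff.natAbs
  set K := (∑ i ∈ range (k + 1), (f.coeff i).natAbs) * (W + 1) ^ k with hK
  set M₀ : ℝ := (K : ℝ) + 1 with hM₀
  have hM0 : 0 < M₀ := by positivity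
  refine ⟨M₀ ^ (-((2 : ℝ) / k)) / (80 * C), by positivity, ?_⟩
  have hk0 : (0 : ℝ) < k := Nat.cast_pos.2 (by omega)
  have ht : Tendsto (fun N : ℝ => (N / M₀) ^ ((1 : ℝ) / k)) atTop atTop :=
    (tendsto_rpow_atTop (by positivity)).comp (tendsto_id.atTop_div_const hM0)
  filter_upwards [(tendsto_nat_floor_atTop.comp ht).eventually (hgood.and hfib),
    ht.eventually (eventually_ge_atTop 2), eventually_ge_atTop 0] with N hN h2 hN0
  set t := (N / M₀) ^ ((1 : ℝ) / k) with ht'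
  simp only [Function.comp_apply, ← ht'] at hN
  obtain ⟨hg, hf⟩ := hN
  set n := ⌊t⌋₊
  have hn : (n : ℝ) ≤ t := Nat.floor_le (by linarith)
  have hn' : t / 2 ≤ n := by linarith [Nat.lt_floor_add_one t]
  have htk : t ^ k = N / M₀ := by
    rw [ht', ← Real.rpow_natCast _ k, ← Real.rpow_mul (by positivity),
      one_div_mul_cancel hk0.ne', Real.rpow_one]
  have hcard : (goodSet f δ n).card ≤ C * ((goodSet f δ n).image (value f)).card :=
    card_le_mul_card_image _ C fun m _ => hf m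
  have himg : ((goodSet f δ n).image (value f)).card ≤ (goodValues f δ n).card := by
    refine le_trans (card_le_card ?_) (card_image_le (f := Int.natAbs))
    intro m hm
    obtain ⟨w, hw, rfl⟩ := mem_image.1 hm
    exact mem_image.2 ⟨_, mem_image_of_mem _ hw, rfl⟩
  have hset : (goodValues f δ n).card ≤
      {m : ℤ | |(m : ℝ)| ≤ N ∧ ∃ x y : ℤ, Thue.form f x y = m}.ncard := by
    rw [← Set.ncard_coe_finset]
    refine Set.ncard_le_ncard (fun m hm => ?_) ?_
    · obtain ⟨w, hw, rfl⟩ := mem_image.1 hm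
      refine ⟨?_, _, _, rfl⟩
      obtain ⟨-, h3, -, h4, -⟩ := mem_pairs (mem_filter.1 hw).1
      have h5 := (value_le f (P := (W + 1) * n)
        (h3.trans (Nat.le_mul_of_pos_left n (Nat.succ_pos W))) h4).trans_eq
        (show _ = K * n ^ k by rw [hK, mul_pow]; ring)
      have h6 : |((Thue.form f w.1 w.2 : ℤ) : ℝ)| ≤ (K : ℝ) * (n : ℝ) ^ k := by
        rw [← Int.cast_abs, ← Nat.cast_natAbs]
        exact_mod_cast h5
      refine h6.trans ?_
      calc (K : ℝ) * (n : ℝ) ^ k ≤ M₀ * t ^ k := by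
            gcongr
            rw [hM₀]; linarith
        _ = N := by rw [htk]; field_simp
    · refine ((Set.finite_Icc (-(⌊N⌋₊ : ℤ)) ⌊N⌋₊)).subset fun m hm => ?_
      have h := hm.1
      rw [← Int.cast_abs, ← Nat.cast_natAbs] at h
      have h' : m.natAbs ≤ ⌊N⌋₊ := Nat.le_floor h
      simp only [Set.mem_Icc]
      omega
  have e : M₀ ^ (-((2 : ℝ) / k)) / (80 * C) * N ^ ((2 : ℝ) / k) = t ^ 2 / (80 * C) := by
    rw [ht', ← Real.rpow_natCast _ 2, ← Real.rpow_mul (by positivity),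
      show (1 : ℝ) / k * ((2 : ℕ) : ℝ) = 2 / k by push_cast; ring,
      Real.div_rpow hN0 hM0.le, Real.rpow_neg hM0.le]
    ring
  rw [e, div_le_iff₀ (by positivity)]
  have h3 : t ^ 2 / 80 ≤ (n : ℝ) ^ 2 / 20 := by
    have := pow_le_pow_left₀ (by linarith) hn' 2
    linarith [show (t / 2) ^ 2 = t ^ 2 / 4 by ring]
  have h4 : ((goodSet f δ n).card : ℝ) ≤
      C * ({m : ℤ | |(m : ℝ)| ≤ N ∧ ∃ x y : ℤ, Thue.form f x y = m}.ncard : ℝ) := by
    exact_mod_cast hcard.trans (Nat.mul_le_mul_left C (himg.trans hset))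
  linarith

end FA.ErdosMahler

end
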